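import Fermat.Agent.S15.GR.Mod.PreJ
import Fermat.Agent.ES.B.H1.Degree

/-!
# S15 / GR / Mod / Beta : the degeneracy map `β : f(q) ↦ f(q^r)`, `FF M → FF (M r)`, and the Gauss valuations

`β = heckeBetaBar Qb M r` (Prelude).  It acts coefficientwise-trivially (`qExpand`), so it is compatible with `RedRel`, and induces `betaRes : resF M A → resF (M r) A`.
`β (j(q^M)) = j(q^(M r))`.
-/

set_option autoImplicit false

open AlgebraicCurve ModularCurve
open scoped IntermediateField

namespace Fermat.Agent.S15.GR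

open Fermat.Agent.ES (Qb FF)
open Fermat.Agent.S26 (FF1)
open Fermat.Agent.Crux (GM.castS)
open Fermat.Agent.S28 (V J)
open Fermat.Agent.S37 Fermat.Agent.S37.Mod

noncomputable section

variable {M : ℕ} [NeZero M] (r : ℕ) [NeZero r] {A : ValuationSubring Qb}

/-- `io A (qExpand A r a) = qExpand Qb r (io A a)` (`coeffMap_qExpand`), which is the underlying series of `heckeBetaBar Qb M r ⟨io A a, ha⟩` (`coe_heckeBetaBar`). -/
theorem isI_qExpand {a : LaurentSeries A} (ha : IsI M A a) : IsI (M * r) A (qExpand A r a) := by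
  have h := (heckeBetaBar Qb M r ⟨io A a, ha⟩).2
  rw [coe_heckeBetaBar] at h
  rw [IsI, io, coeffMap_qExpand]
  exact h

/-- apply `qExpand` (a ring hom, injective: `qExpand_injective`) to the two equations of `RedRel`; `coeffMap_qExpand`, `isI_qExpand`. -/
theorem redRel_qExpand {f : LaurentSeries Qb} {u : LaurentSeries (kA A)} (h : RedRel M A f u) :
    RedRel (M * r) A (qExpand Qb r f) (qExpand (kA A) r u) := by
  obtain ⟨a, b, ha, hb, hb0, hf, hu⟩ := h
  refine ⟨qExpand A r a, qExpand A r b, isI_qExpand r ha, isI_qExpand r hb, ?_, ?_, ?_⟩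
  · rw [rd, coeffMap_qExpand]
    intro h0
    apply hb0
    apply qExpand_injective (R := kA A) (N := r)
    rw [h0, map_zero]
  · rw [io, coeffMap_qExpand, coeffMap_qExpand, ← map_mul]
    exact congrArg _ hf
  · rw [rd, coeffMap_qExpand, coeffMap_qExpand, ← map_mul]
    exact congrArg _ hu

variable (M A) in
/-- `β` on the residue fields. -/
def betaRes : resF M A →ₐ[kA A] resF (M * r) A where
  toFun u := ⟨qExpand (kA A) r (u : LaurentSeries (kA A)), by
    obtain ⟨f, hf⟩ := u.2
    exact ⟨_, redRel_qExpand r hf⟩⟩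
  map_one' := Subtype.ext (map_one (qExpand (kA A) r))
  map_mul' _ _ := Subtype.ext (map_mul (qExpand (kA A) r) _ _)
  map_zero' := Subtype.ext (map_zero (qExpand (kA A) r))
  map_add' _ _ := Subtype.ext (map_add (qExpand (kA A) r) _ _)
  commutes' a := Subtype.ext <| by
    show qExpand (kA A) r (algebraMap (kA A) (LaurentSeries (kA A)) a) =
      algebraMap (kA A) (LaurentSeries (kA A)) a
    rw [algebraMap_laurentSeries_eq_single, qExpand_single, mul_zero]

@[simp] theorem coe_betaRes (u : resF M A) :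
    (betaRes M r A u : LaurentSeries (kA A)) = qExpand (kA A) r (u : LaurentSeries (kA A)) := rfl

variable [NeZero (M * r)]

/-- compatibility of `β` with the reductions (`red_iff`, `redRel_qExpand`, `coe_heckeBetaBar`). -/
theorem red_beta {f : FF M} {u : resF M A} (h : (gaussVFF M A).Red f u) :
    (gaussVFF (M * r) A).Red (heckeBetaBar Qb M r f) (betaRes M r A u) := by
  rw [red_iff] at h ⊢
  rw [coe_heckeBetaBar, coe_betaRes]
  exact redRel_qExpand r h

/-- `Subtype.ext`; `coe_heckeBetaBar`, `coe_jQ`, `GM.CoordJ.castS_VJ`, `qExpand_qExpand`, `qExpand_congr (Nat.mul_comm _ _)`. -/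
theorem beta_jQ : heckeBetaBar Qb M r (jQ M) = jQ (M * r) := by
  apply Subtype.ext
  rw [coe_heckeBetaBar, coe_jQ, coe_jQ, Fermat.Agent.Crux.GM.CoordJ.castS_VJ,
    Fermat.Agent.Crux.GM.CoordJ.castS_VJ]
  show qExpand Qb r (qExpand Qb M (J Qb)) = qExpand Qb (M * r) (J Qb)
  rw [qExpand_qExpand]
  exact qExpand_congr (Nat.mul_comm _ _) _

theorem betaRes_jk : betaRes M r A (jk M A) = jk (M * r) A := by
  apply Subtype.ext
  rw [coe_betaRes, coe_jk, coe_jk, Fermat.Agent.Crux.GM.CoordJ.castS_VJ,
    Fermat.Agent.Crux.GM.CoordJ.castS_VJ]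
  show qExpand (kA A) r (qExpand (kA A) M (J (kA A))) = qExpand (kA A) (M * r) (J (kA A))
  rw [qExpand_qExpand]
  exact qExpand_congr (Nat.mul_comm _ _) _

end

end Fermat.Agent.S15.GR
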