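import Fermat.Agent.S37.Mod.PreChart
import Fermat.Agent.Crux.GM.CoordH

/-!
# S15 / GR / Mod / PreJ : `j(q^M)` is a pre-chart of the Gauss valuation at EVERY level `M` prime to `ℓ` (also `ℓ = 2, 3`)

Copy of `S37/Mod/PreChart.lean` (`transcendental_xk`, `finrank_xQ`, `le_finrank_xk`, `isPreChart_goodCoord`) with the fields of `GM.GoodCoord` replaced by
`GM.exists_degree_basis_card M` (NO condition `5 ≤ ℓ` there), exactly as in the proof of `GM.goodCoord_j` (`Crux/GM/CoordJ.lean`: fields `order_neg`, `leading`, `mem`, `deg`, `basis`).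
-/

set_option autoImplicit false

open AlgebraicCurve ModularCurve
open scoped IntermediateField

namespace Fermat.Agent.S15.GR

open Fermat.Agent.ES (Qb FF)
open Fermat.Agent.S26 (FF1)
open Fermat.Agent.Crux (GM.castS)
open Fermat.Agent.S28 (V J)
open Fermat.Agent.S37 Fermat.Agent.S37.Mod

noncomputable section

/-- `j(q^M) ∈ F_K` (`GM.CoordJ.castS_VJ`, `S28.jqModCd_mem_full K M dvd_rfl`). -/
theorem castS_VJ_mem (K : Type) [Field K] (M : ℕ) [NeZero M] :
    GM.castS K (V ℤ M (J ℤ)) ∈ modularFunctionFieldFullC K M := by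
  rw [Fermat.Agent.Crux.GM.CoordJ.castS_VJ]
  exact jqModCd_mem_full K M dvd_rfl

/-- the coordinate `j(q^M)`. -/
def jQ (M : ℕ) [NeZero M] : FF M := zQ (V ℤ M (J ℤ)) (castS_VJ_mem Qb M)

/-- its reduction. -/
def jk (M : ℕ) [NeZero M] (A : ValuationSubring Qb) : resF M A :=
  zk A (V ℤ M (J ℤ)) (castS_VJ_mem Qb M)

variable {M ℓ : ℕ} [NeZero M]

@[simp] theorem coe_jQ : (jQ M : LaurentSeries Qb) = GM.castS Qb (V ℤ M (J ℤ)) := rfl

@[simp] theorem coe_jk (A : ValuationSubring Qb) :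
    (jk M A : LaurentSeries (kA A)) = GM.castS (kA A) (V ℤ M (J ℤ)) := rfl

theorem red_jQ (A : ValuationSubring Qb) : (gaussVFF M A).Red (jQ M) (jk M A) :=
  red_zQ A _ (castS_VJ_mem Qb M)

/-- as `Mod.transcendental_xk` (`GM.CoordJ.order_VJ`, `coeff_VJ_self`). -/
theorem transcendental_jk (A : ValuationSubring Qb) : Transcendental (kA A) (jk M A) := by
  have h1 : Transcendental (kA A) (GM.castS (kA A) (V ℤ M (J ℤ))) := by
    apply Fermat.Agent.Crux.GM.transcendental_of_order_neg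
    rw [Fermat.Agent.Crux.GM.order_castS (V ℤ M (J ℤ))
      (by rw [HahnSeries.leadingCoeff_eq, Fermat.Agent.Crux.GM.CoordJ.order_VJ,
        Fermat.Agent.Crux.GM.CoordJ.coeff_VJ_self]), Fermat.Agent.Crux.GM.CoordJ.order_VJ]
    have : (0 : ℤ) < M := by exact_mod_cast Nat.pos_of_ne_zero (NeZero.ne M)
    omega
  intro h2
  apply h1
  have h3 := h2.algebraMap (A := LaurentSeries (kA A))
  exact h3

/-- as `Mod.finrank_xQ`. -/
theorem finrank_jQ : Module.finrank Qb⟮jQ M⟯ (FF M) = Nat.card (Fermat.Agent.S24.XN M) := by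
  have h : modularFunctionFieldBar M = modularFunctionFieldFullC Qb M :=
    Fermat.Agent.S17.IsFFAux.laurentBaseChange_eq_fullC _ M
  have h1 := Fermat.Agent.Crux.GM.relfinrank_bar_eq_finrank M (jQ M)
  have h2 := ((Fermat.Agent.Crux.GM.exists_degree_basis_card M).2 Qb
    (fun p hp _ => by exact_mod_cast hp.ne_zero)).1
  rw [← h, ← Fermat.Agent.Crux.GM.CoordJ.castS_VJ] at h2
  exact h1.symm.trans h2

/-- as `Mod.le_finrank_xk`. -/
theorem le_finrank_jk (hℓ : ℓ.Prime) (hM : ¬ ℓ ∣ M) {A : ValuationSubring Qb}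
    (hA : A.LiesOverPrime ℓ) :
    Nat.card (Fermat.Agent.S24.XN M) ≤ Module.finrank (kA A)⟮jk M A⟯ (resF M A) := by
  have : CharP (kA A) ℓ := charP_kA hℓ hA
  have hk : ∀ p : ℕ, p.Prime → p ∣ M → (p : kA A) ≠ 0 := by
    intro p hp hpM h0
    have h1 : ℓ ∣ p := (CharP.cast_eq_zero_iff (kA A) ℓ p).mp h0
    have h2 := (Nat.prime_dvd_prime_iff_eq hℓ hp).mp h1
    exact hM (h2 ▸ hpM)
  obtain ⟨b, hb, hli⟩ := ((Fermat.Agent.Crux.GM.exists_degree_basis_card M).2 (kA A) hk).2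
  rw [← Fermat.Agent.Crux.GM.CoordJ.castS_VJ] at hli
  have hbmem : ∀ i, GM.castS Qb (b i) ∈ modularFunctionFieldFullC Qb M := fun i =>
    Fermat.Agent.S28.monoS_le_full Qb M (Fermat.Agent.S28.coeffMap_mem_monoS _ M (hb i))
  have hfd : FiniteDimensional (kA A)⟮jk M A⟯ (resF M A) :=
    Fermat.Agent.S26.finiteDimensional_adjoin_of_transcendental (transcendental_jk A)
  have hmem : ∀ c : (kA A)⟮jk M A⟯,
      (((c : resF M A) : LaurentSeries (kA A))) ∈ (kA A)⟮GM.castS (kA A) (V ℤ M (J ℤ))⟯ := by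
    intro c
    have h1 : ((kA A)⟮jk M A⟯).map (resF M A).val = (kA A)⟮GM.castS (kA A) (V ℤ M (J ℤ))⟯ := by
      rw [IntermediateField.adjoin_map, Set.image_singleton]
      rfl
    rw [← h1]
    exact ⟨(c : resF M A), c.2, rfl⟩
  have hli' : LinearIndependent (kA A)⟮jk M A⟯ (fun i => zk A (b i) (hbmem i)) := by
    rw [Fintype.linearIndependent_iff]
    intro c hc i
    have h2 : ∑ j, (⟨_, hmem (c j)⟩ : (kA A)⟮GM.castS (kA A) (V ℤ M (J ℤ))⟯) •
        GM.castS (kA A) (b j) = 0 := by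
      have h3 := congrArg (fun z : resF M A => (z : LaurentSeries (kA A))) hc
      simp only [IntermediateField.smul_def, smul_eq_mul] at h3 ⊢
      rw [IntermediateField.coe_sum] at h3
      exact h3
    have h4 := (Fintype.linearIndependent_iff.1 hli) _ h2 i
    have h5 : ((c i : resF M A) : LaurentSeries (kA A)) = 0 := congrArg Subtype.val h4
    exact Subtype.ext (Subtype.ext h5)
  simpa using hli'.fintype_card_le_finrank

/-- **`j(q^M)` is a pre-chart.** -/
theorem isPreChart_jQ (hℓ : ℓ.Prime) (hM : ¬ ℓ ∣ M) {A : ValuationSubring Qb}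
    (hA : A.LiesOverPrime ℓ) : Red.IsPreChart (gaussVFF M A) (jQ M) (jk M A) :=
  ⟨red_jQ A, transcendental_jk A, by rw [finrank_jQ]; exact le_finrank_jk hℓ hM hA⟩

end

end Fermat.Agent.S15.GR
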